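import Fermat.Agent.S41.Ops.IsOp

/-! # S41 / G-6 : the `T_l` commute on `HH A N`. -/

set_option autoImplicit false

open Matrix Matrix.SpecialLinearGroup CongruenceSubgroup OnePoint
open scoped MatrixGroups

namespace Fermat.Agent.S41

variable {A : Type*} [AddCommGroup A]

section identities

variable {N q l l' : ℕ} {x y : ℤ}

theorem sum_range_mul_split {M : Type*} [AddCommMonoid M] (f : ℕ → M) (l l' : ℕ) :
    ∑ k ∈ Finset.range (l * l'), f k
      = ∑ j ∈ Finset.range l', ∑ i ∈ Finset.range l, f (i + j * l) := by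
  induction l' with
  | zero => simp
  | succ n ih =>
    rw [Nat.mul_succ, Finset.sum_range_add, ih, Finset.sum_range_succ]
    congr 1
    refine Finset.sum_congr rfl fun i _ => ?_
    congr 1
    ring

theorem upQ_mul_upQ (hl : l ≠ 0) (hl' : l' ≠ 0) (i j : ℕ) :
    Soft.upQ l' j * Soft.upQ l i = Soft.upQ (l * l') (i + j * l) := by
  apply Units.ext
  rw [Units.val_mul, Soft.val_upQ hl, Soft.val_upQ hl', Soft.val_upQ (Nat.mul_ne_zero hl hl')]
  ext a b
  fin_cases a <;> fin_cases b <;> simp [Matrix.mul_apply, Fin.sum_univ_two] <;> ring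

theorem dgQ_mul_dgQ_comm (l l' : ℕ) : Soft.dgQ l * Soft.dgQ l' = Soft.dgQ l' * Soft.dgQ l := by
  rcases eq_or_ne l 0 with rfl | hl
  · simp [Soft.dgQ]
  rcases eq_or_ne l' 0 with rfl | hl'
  · simp [Soft.dgQ]
  apply Units.ext
  rw [Units.val_mul, Units.val_mul, Soft.val_dgQ hl, Soft.val_dgQ hl']
  ext a b
  fin_cases a <;> fin_cases b <;> simp [Matrix.mul_apply, Fin.sum_univ_two] <;> ring

theorem TT_TT_expand (hl : l ≠ 0) (hl' : l' ≠ 0) (hc : Nat.Coprime l l') (P : OnePoint ℚ → A)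
    (hT : ∀ s : ℚ, P ((s + 1 : ℚ) : OnePoint ℚ) = P (s : OnePoint ℚ)) (s : OnePoint ℚ) :
    Soft.TT l (Soft.TT l' P) s
      = P ((Soft.dgQ l * Soft.dgQ l') • s)
        + ∑ j ∈ Finset.range l', P (Soft.dgQ l • Soft.upQ l' j • s)
        + ∑ i ∈ Finset.range l, P (Soft.dgQ l' • Soft.upQ l i • s)
        + ∑ k ∈ Finset.range (l * l'), P (Soft.upQ (l * l') k • s) := by
  have h1 := Soft.TT_comp_dgQ hl' hl hc P hT s
  have h2 : Soft.TT l (Soft.TT l' P) s = Soft.TT l' P (Soft.dgQ l • s)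
      + ∑ i ∈ Finset.range l, Soft.TT l' P (Soft.upQ l i • s) := rfl
  have h3 : Soft.TT l' (fun t => P (Soft.dgQ l • t)) s = P (Soft.dgQ l • Soft.dgQ l' • s)
      + ∑ j ∈ Finset.range l', P (Soft.dgQ l • Soft.upQ l' j • s) := rfl
  have h4 : ∀ i, Soft.TT l' P (Soft.upQ l i • s) = P (Soft.dgQ l' • Soft.upQ l i • s)
      + ∑ j ∈ Finset.range l', P (Soft.upQ l' j • Soft.upQ l i • s) := fun i => rfl
  rw [h2, ← h1, h3, mul_smul]
  simp only [h4]
  rw [Finset.sum_add_distrib, sum_range_mul_split, Finset.sum_comm, ← add_assoc]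
  congr 1
  refine Finset.sum_congr rfl fun j _ => Finset.sum_congr rfl fun i _ => ?_
  rw [← mul_smul, upQ_mul_upQ hl hl']

theorem TT_TT_comm (hl : l ≠ 0) (hl' : l' ≠ 0) (hc : Nat.Coprime l l') (P : OnePoint ℚ → A)
    (hT : ∀ s : ℚ, P ((s + 1 : ℚ) : OnePoint ℚ) = P (s : OnePoint ℚ)) :
    Soft.TT l (Soft.TT l' P) = Soft.TT l' (Soft.TT l P) := by
  funext s
  rw [TT_TT_expand hl hl' hc P hT, TT_TT_expand hl' hl hc.symm P hT, dgQ_mul_dgQ_comm l l',
    Nat.mul_comm l l']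
  abel

/-- **G6** commutativity (elementary: both composites are
`u(l l' s) + ∑_j u((l s + j)/l') + ∑_i u((l' s + i)/l) + ∑_{k < l l'} u((s+k)/(l l'))` because `u (s+1) = u s`). -/
theorem TH_comm (hl : l.Prime) (hl' : l'.Prime) (hlN : ¬ l ∣ N) (hl'N : ¬ l' ∣ N) (a : HH A N) :
    TH A N l (TH A N l' a) = TH A N l' (TH A N l a) := by
  rcases eq_or_ne l l' with rfl | hne
  · rfl
  obtain ⟨u, rfl⟩ := bd_surjective a
  have hc : Nat.Coprime l l' := (Nat.coprime_primes hl hl').2 hne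
  have hT := (mem_Symb_iff_soft.1 u.2).hT
  unfold TH
  rw [opH_bd (isOp_T hl' hl'N), opH_bd (isOp_T hl hlN), opH_bd (isOp_T hl hlN),
    opH_bd (isOp_T hl' hl'N)]
  congr 1
  apply Subtype.ext
  show opT A l (opT A l' u.1) = opT A l' (opT A l u.1)
  rw [opT_eq_TT, opT_eq_TT, opT_eq_TT, opT_eq_TT]
  exact TT_TT_comm hl.ne_zero hl'.ne_zero hc u.1 hT

end identities

end Fermat.Agent.S41
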