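import Fermat.Agent.S41.Ops.Mat

/-! # S41 / G-3b : the representatives `repC` of `Γ₀(Nq) \ Γ₀(N)` (see the header of `Ops/Mat.lean`, (M4)). -/

set_option autoImplicit false

open Matrix Matrix.SpecialLinearGroup CongruenceSubgroup OnePoint
open scoped MatrixGroups

namespace Fermat.Agent.S41

variable {A : Type*} [AddCommGroup A]

section function_level

variable {N q : ℕ} {x y : ℤ}

theorem mem_Gamma0_iff_dvd {M : ℕ} {g : SL(2, ℤ)} : g ∈ Gamma0 M ↔ (M : ℤ) ∣ g 1 0 := by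
  rw [Gamma0_mem, ZMod.intCast_zmod_eq_zero_iff_dvd]

theorem isCoprime_of_bezout (hxy : (q : ℤ) * x - N * y = 1) : IsCoprime (N : ℤ) (q : ℤ) :=
  ⟨-y, x, by linarith⟩

theorem mem_Gamma0_mul_iff (hxy : (q : ℤ) * x - N * y = 1) {g : SL(2, ℤ)} :
    g ∈ Gamma0 (N * q) ↔ (N : ℤ) ∣ g 1 0 ∧ (q : ℤ) ∣ g 1 0 := by
  rw [mem_Gamma0_iff_dvd]
  push_cast
  constructor
  · intro h
    exact ⟨(Dvd.intro _ rfl).trans h, (Dvd.intro_left _ rfl).trans h⟩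
  · rintro ⟨h1, h2⟩
    exact (isCoprime_of_bezout hxy).mul_dvd h1 h2

theorem mul_repC_inv_apply (hxy : (q : ℤ) * x - N * y = 1) (γ : SL(2, ℤ)) (b : ℤ) :
    (γ * (repC N q x y hxy b)⁻¹) 1 0 = γ 1 0 * (N * b + q * x) - γ 1 1 * N := by
  rw [coe_mul, coe_inv, Matrix.adjugate_fin_two, Matrix.mul_apply, Fin.sum_univ_two]
  simp [repC]
  ring

theorem mul_repC_inv_mem_iff (hq : q.Prime) (hxy : (q : ℤ) * x - N * y = 1) (γ : SL(2, ℤ))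
    (hγ : γ ∈ Gamma0 N) (b : ℤ) :
    γ * (repC N q x y hxy b)⁻¹ ∈ Gamma0 (N * q) ↔ (q : ℤ) ∣ γ 1 0 * b - γ 1 1 := by
  rw [mem_Gamma0_mul_iff hxy, mul_repC_inv_apply]
  have hN : (N : ℤ) ∣ γ 1 0 := mem_Gamma0_iff_dvd.1 hγ
  have h1 : (N : ℤ) ∣ γ 1 0 * (N * b + q * x) - γ 1 1 * N :=
    dvd_sub (Dvd.dvd.mul_right hN _) (Dvd.intro_left _ rfl)
  have h2 : γ 1 0 * (N * b + q * x) - γ 1 1 * N = (N : ℤ) * (γ 1 0 * b - γ 1 1) + q * (γ 1 0 * x) := by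
    ring
  constructor
  · rintro ⟨-, h⟩
    rw [h2] at h
    have h3 : (q : ℤ) ∣ (N : ℤ) * (γ 1 0 * b - γ 1 1) :=
      (dvd_add_left (Dvd.intro _ rfl)).1 h
    exact (isCoprime_of_bezout hxy).symm.dvd_of_dvd_mul_left h3
  · intro h
    refine ⟨h1, ?_⟩
    rw [h2]
    exact dvd_add (Dvd.dvd.mul_left h _) (Dvd.intro _ rfl)

/-- (M4) every `γ ∈ Γ₀(N)` lies in exactly one coset `Γ₀(N q) r`. -/
theorem repC_cover (hq : q.Prime) (hxy : (q : ℤ) * x - N * y = 1) (γ : SL(2, ℤ))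
    (hγ : γ ∈ Gamma0 N) (hγ' : γ ∉ Gamma0 (N * q)) :
    ∃! b : ℕ, b < q ∧ γ * (repC N q x y hxy b)⁻¹ ∈ Gamma0 (N * q) := by
  have hF : Fact q.Prime := ⟨hq⟩
  have hc : ((γ 1 0 : ℤ) : ZMod q) ≠ 0 := by
    intro h
    apply hγ'
    rw [mem_Gamma0_mul_iff hxy]
    exact ⟨mem_Gamma0_iff_dvd.1 hγ, (ZMod.intCast_zmod_eq_zero_iff_dvd _ _).1 h⟩
  have key : ∀ b : ℕ, γ * (repC N q x y hxy b)⁻¹ ∈ Gamma0 (N * q) ↔
      (b : ZMod q) = ((γ 1 1 : ℤ) : ZMod q) / ((γ 1 0 : ℤ) : ZMod q) := by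
    intro b
    rw [mul_repC_inv_mem_iff hq hxy γ hγ, ← ZMod.intCast_zmod_eq_zero_iff_dvd, eq_div_iff hc]
    push_cast
    rw [sub_eq_zero, mul_comm]
  refine ⟨(((γ 1 1 : ℤ) : ZMod q) / ((γ 1 0 : ℤ) : ZMod q)).val, ⟨ZMod.val_lt _, ?_⟩, ?_⟩
  · rw [key, ZMod.natCast_zmod_val]
  · rintro b ⟨hb, hb'⟩
    rw [key] at hb'
    rw [← hb', ZMod.val_natCast, Nat.mod_eq_of_lt hb]

theorem repC_not_mem (hq : q.Prime) (hxy : (q : ℤ) * x - N * y = 1) (b : ℤ) :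
    repC N q x y hxy b ∉ Gamma0 (N * q) := by
  rw [mem_Gamma0_mul_iff hxy]
  rintro ⟨-, h⟩
  have h1 : (repC N q x y hxy b) 1 0 = (N : ℤ) := by simp [repC]
  rw [h1] at h
  have h2 : (q : ℤ) ∣ 1 := by
    rw [← hxy]
    exact dvd_sub (Dvd.intro _ rfl) (Dvd.dvd.mul_right h _)
  have h3 : q ∣ 1 := by exact_mod_cast h2
  exact hq.one_lt.ne' (Nat.dvd_one.1 h3)

end function_level

end Fermat.Agent.S41
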