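import Fermat.Agent.S41.Ops.IsOp

/-! # S41 / G-4 : identities between the descended operators.

All by `bd_surjective`, `opH_bd`, `opH_comp`, `opH_add`, `opH_congr` and the function-level facts of `Ops/Mat.lean`; constants are in `Inv` (`const_mem_Inv`).
`coresH_wH_resH`: `opC (opW u) = opW u + opU (opW (opW u)) = opB u + opU u + const`.  `coresH_resH`: `opC_apply`, `repC_mem`.  `resH_coresH`: definition of `opC`.
`TH_betaH`: `Soft.TT_comp_dgQ` (`u (s+1) = u s`: `Soft.IsPot.hT`). -/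

set_option autoImplicit false

open Matrix Matrix.SpecialLinearGroup CongruenceSubgroup OnePoint
open scoped MatrixGroups

namespace Fermat.Agent.S41

variable {A : Type*} [AddCommGroup A]

/-- two symbols differing by a constant have the same class. -/
theorem bd_eq_of_const {Γ : Subgroup SL(2, ℤ)} (u v : Symb Γ A) (a : A)
    (h : ∀ s, u.1 s = v.1 s + a) : bd Γ A u = bd Γ A v := by
  rw [← sub_eq_zero, ← map_sub, bd_eq_zero_iff]
  have : (u - v).1 = fun _ => a := by
    funext s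
    show u.1 s - v.1 s = a
    rw [h s]
    abel
  rw [this]
  exact const_mem_Inv a

section identities

variable {N q l l' : ℕ} {x y : ℤ}

theorem betaH_eq (hq : q.Prime) (hqN : ¬ q ∣ N) (hxy : (q : ℤ) * x - N * y = 1) :
    betaH A N q = wH A N q x y ∘ₗ resH A N q := by
  ext1 a
  obtain ⟨u, rfl⟩ := bd_surjective a
  rw [LinearMap.comp_apply, betaH, wH, resH, opH_bd (isOp_B hq hqN),
    opH_bd (isOp_res (Gamma0_mul_le N q)), opH_bd (isOp_W hq.pos hxy)]
  obtain ⟨a, ha⟩ := opW_sub_opB_const hq.pos hxy u.2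
  exact (bd_eq_of_const _ _ a ha).symm

theorem wH_wH (hq : q.Prime) (hxy : (q : ℤ) * x - N * y = 1) (a : HH A (N * q)) :
    wH A N q x y (wH A N q x y a) = a := by
  obtain ⟨u, rfl⟩ := bd_surjective a
  rw [wH, opH_bd (isOp_W hq.pos hxy), opH_bd (isOp_W hq.pos hxy)]
  obtain ⟨a, ha⟩ := opW_opW_const hq.pos hxy u.2
  exact bd_eq_of_const _ _ a ha

theorem coresH_resH (hq : q.Prime) (hxy : (q : ℤ) * x - N * y = 1) (a : HH A N) :
    coresH A N q x y (resH A N q a) = ((q : ℤ) + 1) • a := by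
  obtain ⟨u, rfl⟩ := bd_surjective a
  rw [coresH, resH, opH_bd (isOp_res (Gamma0_mul_le N q)), opH_bd (isOp_C hq hxy),
    ← _root_.map_smul]
  refine bd_eq_of_const _ _
    (∑ b ∈ Finset.range q, (u.1 (mapGL ℚ (repC N q x y hxy b) • ∞) - u.1 ∞)) fun s => ?_
  show opC A N q x y u.1 s = ((q : ℤ) + 1) • u.1 s + _
  rw [opC_apply hq.pos hxy]
  have h1 : ∀ b ∈ Finset.range q, u.1 (mapGL ℚ (repC N q x y hxy b) • s) =
      u.1 s + (u.1 (mapGL ℚ (repC N q x y hxy b) • ∞) - u.1 ∞) := by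
    intro b _
    rw [← u.2 _ (repC_mem hxy b) s ∞]
    abel
  rw [Finset.sum_congr rfl h1, Finset.sum_add_distrib, Finset.sum_const, Finset.card_range,
    add_smul, one_smul, natCast_zsmul]
  abel

theorem coresH_wH_resH (hq : q.Prime) (hqN : ¬ q ∣ N) (hxy : (q : ℤ) * x - N * y = 1) (a : HH A N) :
    coresH A N q x y (wH A N q x y (resH A N q a)) = TH A N q a := by
  obtain ⟨u, rfl⟩ := bd_surjective a
  rw [coresH, wH, resH, TH, opH_bd (isOp_res (Gamma0_mul_le N q)), opH_bd (isOp_W hq.pos hxy),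
    opH_bd (isOp_C hq hxy), opH_bd (isOp_T hq hqN)]
  have hu' : u.1 ∈ Symb (Gamma0 (N * q)) A := (isOp_res (Gamma0_mul_le N q)).symb u.1 u.2
  obtain ⟨a, ha⟩ := opW_sub_opB_const hq.pos hxy u.2
  obtain ⟨a', ha'⟩ := opW_opW_const hq.pos hxy hu'
  refine bd_eq_of_const _ _ (a + q • a') fun s => ?_
  show opC A N q x y (opW A N q x y u.1) s = opT A q u.1 s + (a + q • a')
  have h2 : opW A N q x y (opW A N q x y u.1) = u.1 + fun _ => a' := by
    funext t
    exact ha' t
  rw [opC, LinearMap.add_apply, LinearMap.id_apply, LinearMap.comp_apply, Pi.add_apply, h2,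
    map_add, Pi.add_apply, ha s, opT, LinearMap.add_apply, Pi.add_apply,
    opU_apply q (fun _ => a'), Finset.sum_const, Finset.card_range]
  abel

theorem resH_coresH (hq : q.Prime) (hqN : ¬ q ∣ N) (hxy : (q : ℤ) * x - N * y = 1)
    (a : HH A (N * q)) :
    resH A N q (coresH A N q x y a) = a + UH A (N * q) q (wH A N q x y a) := by
  obtain ⟨u, rfl⟩ := bd_surjective a
  rw [coresH, wH, resH, UH, opH_bd (isOp_C hq hxy), opH_bd (isOp_res (Gamma0_mul_le N q)),
    opH_bd (isOp_W hq.pos hxy), opH_bd (isOp_U hq hqN), ← map_add]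
  rfl

theorem TH_resH (hl : l.Prime) (hlN : ¬ l ∣ N * q) (a : HH A N) :
    TH A (N * q) l (resH A N q a) = resH A N q (TH A N l a) := by
  obtain ⟨u, rfl⟩ := bd_surjective a
  have hlN' : ¬ l ∣ N := fun h => hlN (Dvd.dvd.mul_right h q)
  rw [TH, TH, resH, opH_bd (isOp_res (Gamma0_mul_le N q)), opH_bd (isOp_T hl hlN),
    opH_bd (isOp_T hl hlN'), opH_bd (isOp_res (Gamma0_mul_le N q))]
  rfl

theorem TH_betaH (hq : q.Prime) (hqN : ¬ q ∣ N) (hl : l.Prime) (hlN : ¬ l ∣ N * q) (a : HH A N) :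
    TH A (N * q) l (betaH A N q a) = betaH A N q (TH A N l a) := by
  obtain ⟨u, rfl⟩ := bd_surjective a
  have hlN' : ¬ l ∣ N := fun h => hlN (Dvd.dvd.mul_right h q)
  have hlq : ¬ l ∣ q := fun h => hlN (Dvd.dvd.mul_left h N)
  have hcop : Nat.Coprime q l := ((Nat.Prime.coprime_iff_not_dvd hl).2 hlq).symm
  rw [TH, TH, betaH, opH_bd (isOp_B hq hqN), opH_bd (isOp_T hl hlN),
    opH_bd (isOp_T hl hlN'), opH_bd (isOp_B hq hqN)]
  congr 1
  apply Subtype.ext
  show opT A l (opB A q u.1) = opB A q (opT A l u.1)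
  funext s
  rw [opT_eq_TT, opB_apply, opT_eq_TT]
  have h1 : opB A q u.1 = fun t => u.1 (Soft.dgQ q • t) := by
    funext t
    exact opB_apply q u.1 t
  rw [h1]
  exact Soft.TT_comp_dgQ hl.ne_zero hq.ne_zero hcop u.1 (mem_Symb_iff_soft.1 u.2).hT s

end identities

end Fermat.Agent.S41
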