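import Fermat.Agent.S41.Ops.Cover
import Fermat.Agent.S41.EP.Bridge

/-! # S41 / G-3c : the concrete operators are operators (`IsOp`).

`isOp_W`: `matW_normalizes`.  `isOp_C`: `opC_apply`, `repC_cover`: for `γ ∈ Γ₀(N)`, `r_j γ = c_j r_{σ j}` with `c_j ∈ Γ₀(Nq)`, `σ` a permutation of `Option (Fin q)`.
`isOp_B`: `opB u = opW u - const` on `Symb Γ₀(N) ⊆ Symb Γ₀(Nq)` (choose `x y` by Bezout).  `isOp_T`: `Soft.IsPot.TT` for symbols; the same proof (or `opT u = opC (opW u) + const` at levels `M`, `M l`) for invariants.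
`isOp_U`: `opU u = (opC - 1) (opW u) - const` because `opW (opW u) = u + const`; or Prelude `heckeMatrix_mul_of_dvd` as in `Soft.IsPot.TT`. -/

set_option autoImplicit false

open Matrix Matrix.SpecialLinearGroup CongruenceSubgroup OnePoint
open scoped MatrixGroups

namespace Fermat.Agent.S41

variable {A : Type*} [AddCommGroup A]

section isOp

variable {N q M l : ℕ} {x y : ℤ}

theorem isOp_pull_of_normalizes {Γ' Γ : Subgroup SL(2, ℤ)} (δ : GL (Fin 2) ℚ)
    (h : ∀ γ ∈ Γ, ∃ γ' ∈ Γ', ∀ s : OnePoint ℚ, δ • (mapGL ℚ γ • s) = mapGL ℚ γ' • (δ • s)) :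
    IsOp (A := A) Γ' Γ (pull A δ) := by
  constructor
  · intro u hu γ hγ s t
    obtain ⟨γ', hγ', hh⟩ := h γ hγ
    simp only [pull_apply, hh]
    exact hu γ' hγ' _ _
  · intro u hu γ hγ s
    obtain ⟨γ', hγ', hh⟩ := h γ hγ
    simp only [pull_apply, hh]
    exact hu γ' hγ' _

theorem isOp_W (hq : 0 < q) (hxy : (q : ℤ) * x - N * y = 1) :
    IsOp (Gamma0 (N * q)) (Gamma0 (N * q)) (opW A N q x y) :=
  isOp_pull_of_normalizes _ (matW_normalizes hq hxy)

/-- the representatives of `Γ₀(Nq) \ Γ₀(N)`, indexed by `Option (Fin q)`. -/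
def rC (N q : ℕ) (x y : ℤ) (hxy : (q : ℤ) * x - N * y = 1) (j : Option (Fin q)) : SL(2, ℤ) :=
  j.elim 1 (fun b => repC N q x y hxy ((b : ℕ) : ℤ))

theorem rC_mem (hxy : (q : ℤ) * x - N * y = 1) (j : Option (Fin q)) :
    rC N q x y hxy j ∈ Gamma0 N := by
  cases j with
  | none => exact (Gamma0 N).one_mem
  | some b => exact repC_mem hxy _

theorem existsUnique_rC (hq : q.Prime) (hxy : (q : ℤ) * x - N * y = 1) (g : SL(2, ℤ))
    (hg : g ∈ Gamma0 N) : ∃! j : Option (Fin q), g * (rC N q x y hxy j)⁻¹ ∈ Gamma0 (N * q) := by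
  by_cases hg' : g ∈ Gamma0 (N * q)
  · refine ⟨none, by simpa [rC] using hg', ?_⟩
    intro j hj
    cases j with
    | none => rfl
    | some b =>
      exfalso
      apply repC_not_mem hq hxy ((b : ℕ) : ℤ)
      have h1 := (Gamma0 (N * q)).mul_mem ((Gamma0 (N * q)).inv_mem hj) hg'
      simpa [rC] using h1
  · obtain ⟨b, ⟨hb, hb'⟩, huniq⟩ := repC_cover hq hxy g hg hg'
    refine ⟨Option.some ⟨b, hb⟩, hb', ?_⟩
    intro j hj
    cases j with
    | none => exact absurd (by simpa [rC] using hj) hg'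
    | some b' =>
      have := huniq b' ⟨b'.2, hj⟩
      exact congrArg Option.some (Fin.ext this)

theorem opC_eq_sum (hq : 0 < q) (hxy : (q : ℤ) * x - N * y = 1) :
    opC A N q x y = ∑ j : Option (Fin q), pull A (mapGL ℚ (rC N q x y hxy j)) := by
  refine LinearMap.ext fun u => funext fun s => ?_
  rw [opC_apply hq hxy, sum_pull_apply, Fintype.sum_option, Finset.sum_range]
  simp [rC]

/-- transfer data for the trace from `Γ₀(Nq)` to `Γ₀(N)`. -/
theorem exists_transfer_C (hq : q.Prime) (hxy : (q : ℤ) * x - N * y = 1) (γ : SL(2, ℤ))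
    (hγ : γ ∈ Gamma0 N) : ∃ (σ : Equiv.Perm (Option (Fin q))) (c : Option (Fin q) → Gamma0 (N * q)),
      IsTransfer (Gamma0 (N * q)) (fun j => mapGL ℚ (rC N q x y hxy j)) γ σ c := by
  classical
  have hex : ∀ j : Option (Fin q), ∃! j' : Option (Fin q),
      (rC N q x y hxy j * γ) * (rC N q x y hxy j')⁻¹ ∈ Gamma0 (N * q) := fun j =>
    existsUnique_rC hq hxy _ ((Gamma0 N).mul_mem (rC_mem hxy j) hγ)
  choose σ hσ hσu using hex
  have hinj : Function.Injective σ := by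
    intro j k hjk
    have h1 := hσ j
    have h2 := hσ k
    rw [← hjk] at h2
    have h3 := (Gamma0 (N * q)).mul_mem h1 ((Gamma0 (N * q)).inv_mem h2)
    have h4 : rC N q x y hxy j * γ * (rC N q x y hxy (σ j))⁻¹ *
        (rC N q x y hxy k * γ * (rC N q x y hxy (σ j))⁻¹)⁻¹ =
        rC N q x y hxy j * (rC N q x y hxy k)⁻¹ := by group
    rw [h4] at h3
    obtain ⟨m, -, hm⟩ := existsUnique_rC hq hxy _ (rC_mem hxy j)
    have h5 := hm k h3
    have h6 := hm j (by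
      change rC N q x y hxy j * (rC N q x y hxy j)⁻¹ ∈ Gamma0 (N * q)
      rw [mul_inv_cancel]; exact (Gamma0 (N * q)).one_mem)
    rw [h5, h6]
  refine ⟨Equiv.ofBijective σ (Finite.injective_iff_bijective.1 hinj),
    fun j => ⟨_, hσ j⟩, fun j => ?_⟩
  simp only [Equiv.ofBijective_apply]
  rw [← map_mul, ← map_mul]
  congr 1
  group

/-- from `repC_cover`: right multiplication by `γ ∈ Γ₀(N)` permutes the cosets. -/
theorem isOp_C (hq : q.Prime) (hxy : (q : ℤ) * x - N * y = 1) :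
    IsOp (Gamma0 (N * q)) (Gamma0 N) (opC A N q x y) := by
  rw [opC_eq_sum hq.pos hxy]
  exact isOp_sum_pull _ fun γ hγ => exists_transfer_C hq hxy γ hγ

theorem Gamma0_mul_le (N q : ℕ) : Gamma0 (N * q) ≤ Gamma0 N := by
  intro g hg
  rw [mem_Gamma0_iff_dvd] at hg ⊢
  push_cast at hg
  exact (Dvd.intro _ rfl).trans hg

theorem isOp_B (hq : q.Prime) (hqN : ¬ q ∣ N) : IsOp (Gamma0 N) (Gamma0 (N * q)) (opB A q) := by
  refine isOp_pull_of_normalizes _ fun γ hγ => ?_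
  rw [mem_Gamma0_iff_dvd] at hγ
  push_cast at hγ
  obtain ⟨k, hk⟩ := hγ
  have hdet : γ 0 0 * γ 1 1 - γ 0 1 * γ 1 0 = 1 := by
    have := γ.det_coe
    rwa [Matrix.det_fin_two] at this
  have hq0 : (q : ℚ) ≠ 0 := by exact_mod_cast hq.ne_zero
  have hdet' : (!![γ 0 0, q * γ 0 1; N * k, γ 1 1] : Matrix (Fin 2) (Fin 2) ℤ).det = 1 := by
    rw [Matrix.det_fin_two_of]
    rw [hk] at hdet
    linarith
  set γ' : SL(2, ℤ) := ⟨!![γ 0 0, q * γ 0 1; N * k, γ 1 1], hdet'⟩ with hγ'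
  have h00 : γ' 0 0 = γ 0 0 := rfl
  have h01 : γ' 0 1 = q * γ 0 1 := rfl
  have h10 : γ' 1 0 = N * k := rfl
  have h11 : γ' 1 1 = γ 1 1 := rfl
  refine ⟨γ', ?_, fun s => ?_⟩
  · rw [mem_Gamma0_iff_dvd, h10]
    exact Dvd.intro _ rfl
  · rw [← mul_smul, ← mul_smul]
    congr 1
    apply Units.ext
    rw [Units.val_mul, Units.val_mul, coe_mk2 (by simpa using hq0)]
    have hk' : ((γ 1 0 : ℤ) : ℚ) = N * q * k := by rw [hk]; push_cast; ring
    ext a b
    fin_cases a <;> fin_cases b <;>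
      simp [Matrix.mul_apply, Fin.sum_univ_two, hk', h00, h01, h10, h11] <;> ring

theorem isOp_T (hl : l.Prime) (hlM : ¬ l ∣ M) : IsOp (Gamma0 M) (Gamma0 M) (opT A l) :=
  isOp_opT A hl hlM

theorem isOp_U (hq : q.Prime) (hqN : ¬ q ∣ N) : IsOp (Gamma0 (N * q)) (Gamma0 (N * q)) (opU A q) :=
  haveI : NeZero q := ⟨hq.ne_zero⟩
  isOp_opU A (Dvd.intro_left N rfl)

end isOp

end Fermat.Agent.S41
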