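import Fermat.Agent.S41.Bridge

/-!
# S41 / G3, G4, G6 : the operators on symbols, and their identities on `HH A M`

Notation: `Γ = Γ₀(N)`, `Γ' = Γ₀(N q)`, `q x - N y = 1`, `W = [[q, y],[N q, q x]]` (`matW`), `β = diag(q,1)`, `δ_b = [[1,b],[0,q]]`.
Matrix facts (all are `Matrix` identities over `ℚ`; proportional matrices act equally on cusps: `Soft.smul_eq_of_proportional`):
 (M1) `W = γ₀ β`, `γ₀ = [[1,y],[N,q x]] ∈ Γ`.
 (M2) `W² = q γ₁`, `γ₁ = [[q + N y, y + x y],[N q + N q x, N y + q x²]] ∈ Γ'`.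
 (M3) `W γ = γ' W` with `γ' ∈ Γ'` for `γ ∈ Γ'` (explicit entries, see the blueprint post).
 (M4) `W δ_b = q r_b`, `r_b = [[1, b + y],[N, N b + q x]] ∈ Γ`; `{1} ∪ {r_b : b < q}` represents `Γ' \ Γ`
   (`γ = [[a,b],[c,d]] ∈ Γ`: `q ∣ c` ↔ `γ ∈ Γ'`; otherwise `γ r_b⁻¹ ∈ Γ'` ↔ `c b ≡ d mod q`).
-/

set_option autoImplicit false

open Matrix Matrix.SpecialLinearGroup CongruenceSubgroup OnePoint
open scoped MatrixGroups

namespace Fermat.Agent.S41

variable {A : Type*} [AddCommGroup A]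

section function_level

variable {N q : ℕ} {x y : ℤ}

theorem coe_matW (hq : 0 < q) (hxy : (q : ℤ) * x - N * y = 1) :
    ((matW N q x y : GL (Fin 2) ℚ) : Matrix (Fin 2) (Fin 2) ℚ)
      = !![(q : ℚ), (y : ℚ); (N : ℚ) * q, (q : ℚ) * x] := by
  have hxyQ : (q : ℚ) * x - N * y = 1 := by exact_mod_cast hxy
  have hqQ : (q : ℚ) ≠ 0 := by exact_mod_cast hq.ne'
  rw [matW, coe_mk2]
  have : (q : ℚ) * (q * x) - y * (N * q) = q := by linear_combination (q : ℚ) * hxyQ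
  rw [this]
  exact hqQ

theorem coe_mapGL_of (a b c d : ℤ) (h : (!![a, b; c, d] : Matrix (Fin 2) (Fin 2) ℤ).det = 1) :
    ((mapGL ℚ (⟨!![a, b; c, d], h⟩ : SL(2, ℤ)) : GL (Fin 2) ℚ) : Matrix (Fin 2) (Fin 2) ℚ)
      = !![(a : ℚ), (b : ℚ); (c : ℚ), (d : ℚ)] := by
  ext i j
  have := mapGL_apply (⟨!![a, b; c, d], h⟩ : SL(2, ℤ)) i j
  rw [this]
  fin_cases i <;> fin_cases j <;> simp

/-- (M1) -/
theorem opW_sub_opB_const (hq : 0 < q) (hxy : (q : ℤ) * x - N * y = 1) {u : OnePoint ℚ → A}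
    (hu : u ∈ Symb (Gamma0 N) A) : ∃ a : A, ∀ s, opW A N q x y u s = opB A q u s + a := by
  have hdet : (!![1, y; (N : ℤ), q * x] : Matrix (Fin 2) (Fin 2) ℤ).det = 1 := by
    rw [Matrix.det_fin_two_of]; linarith
  set γ₀ : SL(2, ℤ) := ⟨!![1, y; (N : ℤ), q * x], hdet⟩ with hγ₀
  have hmem : γ₀ ∈ Gamma0 N := by
    rw [Gamma0_mem]; simp [γ₀]
  obtain ⟨c, hc⟩ := (mem_Symb_iff_soft.1 hu) γ₀ hmem
  refine ⟨c, fun s => ?_⟩
  rw [opB_apply, ← hc, opW, pull_apply, ← mul_smul]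
  congr 1
  apply Soft.smul_eq_of_proportional _ _ one_ne_zero
  intro i j
  rw [Matrix.GeneralLinearGroup.coe_mul, coe_matW hq hxy, Soft.val_dgQ hq.ne', hγ₀, coe_mapGL_of,
    Matrix.mul_apply, Fin.sum_univ_two]
  fin_cases i <;> fin_cases j <;> simp

/-- (M2) -/
theorem opW_opW_const (hq : 0 < q) (hxy : (q : ℤ) * x - N * y = 1) {u : OnePoint ℚ → A}
    (hu : u ∈ Symb (Gamma0 (N * q)) A) :
    ∃ a : A, ∀ s, opW A N q x y (opW A N q x y u) s = u s + a := by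
  have hdet : (!![(q : ℤ) + N * y, y + x * y; (N : ℤ) * q + N * q * x, N * y + q * x ^ 2] :
      Matrix (Fin 2) (Fin 2) ℤ).det = 1 := by
    rw [Matrix.det_fin_two_of]
    linear_combination ((q : ℤ) * x - N * y + 1) * hxy
  set γ₁ : SL(2, ℤ) :=
    ⟨!![(q : ℤ) + N * y, y + x * y; (N : ℤ) * q + N * q * x, N * y + q * x ^ 2], hdet⟩ with hγ₁
  have hmem : γ₁ ∈ Gamma0 (N * q) := by
    rw [Gamma0_mem]
    have : ((γ₁ 1 0 : ℤ)) = ((N * q : ℕ) : ℤ) * (1 + x) := by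
      simp [γ₁]; ring
    rw [this, ZMod.intCast_zmod_eq_zero_iff_dvd]
    exact Dvd.intro _ rfl
  have hqQ : (q : ℚ) ≠ 0 := by exact_mod_cast hq.ne'
  obtain ⟨c, hc⟩ := (mem_Symb_iff_soft.1 hu) γ₁ hmem
  refine ⟨c, fun s => ?_⟩
  rw [← hc, opW, pull_apply, pull_apply, ← mul_smul]
  congr 1
  apply Soft.smul_eq_of_proportional _ _ hqQ
  intro i j
  rw [Matrix.GeneralLinearGroup.coe_mul, coe_matW hq hxy, hγ₁, coe_mapGL_of,
    Matrix.mul_apply, Fin.sum_univ_two]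
  fin_cases i <;> fin_cases j <;> simp <;> ring

/-- (M3) `W` normalises `Γ₀(N q)` (shape needed by `PD.b3_comp_W`). -/
theorem matW_normalizes (hq : 0 < q) (hxy : (q : ℤ) * x - N * y = 1) :
    ∀ γ ∈ Gamma0 (N * q), ∃ γ' ∈ Gamma0 (N * q), ∀ s : OnePoint ℚ,
      matW N q x y • (mapGL ℚ γ • s) = mapGL ℚ γ' • (matW N q x y • s) := by
  intro γ hγ
  rw [Gamma0_mem, ZMod.intCast_zmod_eq_zero_iff_dvd] at hγ
  obtain ⟨c', hc'⟩ := hγ
  have hxyQ : (q : ℚ) * x - N * y = 1 := by exact_mod_cast hxy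
  obtain ⟨a, ha⟩ : ∃ a, a = γ 0 0 := ⟨_, rfl⟩
  obtain ⟨b, hb⟩ : ∃ b, b = γ 0 1 := ⟨_, rfl⟩
  obtain ⟨d, hd⟩ : ∃ d, d = γ 1 1 := ⟨_, rfl⟩
  push_cast at hc'
  have hdγ : a * d - b * (N * q * c') = 1 := by
    have := γ.det_coe
    rw [Matrix.det_fin_two, hc', ← ha, ← hb, ← hd] at this
    exact this
  have hdet : (!![((q : ℤ) * a + y * (N * q * c')) * x - (q * b + y * d) * N,
        -a * y - y ^ 2 * N * c' + q * b + y * d;
      (N : ℤ) * q * (a * x + q * x ^ 2 * c' - N * b - x * d),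
        -N * a * y - x * (N * q * c') * y + N * q * b + q * x * d] :
      Matrix (Fin 2) (Fin 2) ℤ).det = 1 := by
    rw [Matrix.det_fin_two_of]
    linear_combination (((q : ℤ) * x - N * y + 1) * (a * d - b * (N * q * c'))) * hxy + hdγ
  obtain ⟨γ', hγ'⟩ : ∃ γ' : SL(2, ℤ), γ' = ⟨_, hdet⟩ := ⟨_, rfl⟩
  refine ⟨γ', ?_, fun s => ?_⟩
  · rw [Gamma0_mem, ZMod.intCast_zmod_eq_zero_iff_dvd, hγ']
    refine ⟨a * x + q * x ^ 2 * c' - N * b - x * d, ?_⟩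
    simp
  · rw [← mul_smul, ← mul_smul, hγ']
    apply Soft.smul_eq_of_proportional _ _ one_ne_zero
    intro i j
    have e : ((mapGL ℚ γ : GL (Fin 2) ℚ) : Matrix (Fin 2) (Fin 2) ℚ)
        = !![(a : ℚ), (b : ℚ); (N : ℚ) * q * c', (d : ℚ)] := by
      ext i j
      rw [mapGL_apply]
      fin_cases i <;> fin_cases j <;> simp [ha, hb, hc', hd]
    rw [Matrix.GeneralLinearGroup.coe_mul, Matrix.GeneralLinearGroup.coe_mul, coe_matW hq hxy,
      coe_mapGL_of, e, Matrix.mul_apply, Fin.sum_univ_two, Matrix.mul_apply, Fin.sum_univ_two]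
    fin_cases i <;> fin_cases j <;> simp
    · linear_combination (-((q : ℚ) * a + y * (N * q * c'))) * hxyQ
    · linear_combination (-((q : ℚ) * b + y * d)) * hxyQ
    · linear_combination (-((N : ℚ) * q * a + q * x * (N * q * c'))) * hxyQ
    · linear_combination (-((N : ℚ) * q * b + q * x * d)) * hxyQ

theorem matW_det_pos (hq : 0 < q) (hxy : (q : ℤ) * x - N * y = 1) :
    0 < ((matW N q x y : GL (Fin 2) ℚ) : Matrix (Fin 2) (Fin 2) ℚ).det := by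
  have hxyQ : (q : ℚ) * x - N * y = 1 := by exact_mod_cast hxy
  have hqQ : (0 : ℚ) < q := by exact_mod_cast hq
  rw [coe_matW hq hxy, Matrix.det_fin_two_of]
  have : (q : ℚ) * (q * x) - y * (N * q) = q := by linear_combination (q : ℚ) * hxyQ
  rw [this]
  exact hqQ

/-- (M4) the representatives. -/
def repC (N q : ℕ) (x y : ℤ) (hxy : (q : ℤ) * x - N * y = 1) (b : ℤ) : SL(2, ℤ) :=
  ⟨!![1, b + y; (N : ℤ), N * b + q * x], by rw [Matrix.det_fin_two_of]; linarith⟩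

theorem repC_mem (hxy : (q : ℤ) * x - N * y = 1) (b : ℤ) : repC N q x y hxy b ∈ Gamma0 N := by
  rw [Gamma0_mem]; simp [repC]

theorem opC_apply (hq : 0 < q) (hxy : (q : ℤ) * x - N * y = 1) (u : OnePoint ℚ → A)
    (s : OnePoint ℚ) : opC A N q x y u s =
      u s + ∑ b ∈ Finset.range q, u (mapGL ℚ (repC N q x y hxy b) • s) := by
  have hqQ : (q : ℚ) ≠ 0 := by exact_mod_cast hq.ne'
  rw [opC, LinearMap.add_apply, Pi.add_apply, LinearMap.id_apply, LinearMap.comp_apply, opU_apply]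
  congr 1
  refine Finset.sum_congr rfl fun b _ => ?_
  rw [opW, pull_apply, ← mul_smul]
  congr 1
  apply Soft.smul_eq_of_proportional _ _ hqQ
  intro i j
  rw [Matrix.GeneralLinearGroup.coe_mul, coe_matW hq hxy, Soft.val_upQ hq.ne', repC, coe_mapGL_of,
    Matrix.mul_apply, Fin.sum_univ_two]
  fin_cases i <;> fin_cases j <;> simp <;> ring

end function_level

end Fermat.Agent.S41
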